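import Fermat.Agent.S38.H901.IALevel
import Fermat.Agent.S59.TW.H959.Iface

/-!
# Row HARD (row 37), cell BRIDGE: from a Taylor–Wiles level of Ihara avoidance to `H901.IALevel`
(helper607; board `coord/HARD.md` v3, §3.3)

Pure algebra.  Data at one level: the patched ring `A` (an `𝒪`-algebra), a structure map
`γ : A → T` to the Hecke ring of the level, a `T`-module `M`, the inertia values `w_i ∈ T`, a
homomorphism `φ : S = 𝒪⟦y₁..y_r⟧ → A` with `γ (φ y_i) = w_i - 1`, a family `b : Fin d → M` such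
that `M / (w_i^m - 1) M` is free over the group ring `𝒪[(ℤ/m)^r]` with basis `b`
(`H959.IsGroupRingBasis`), the spanning property of the group-ring monomials modulo
`J = ((1 + y_j)^m - 1)` (Weierstrass, `H959.WeierstrassStatement`), and the Steinberg divisibility
`s • M ⊆ lam • M`.  Then `N := M / (w_i^m - 1) M` is an `H901.IALevel S A J d lam lam s`.

* `nonempty_iaLevel_of_hom` : the statement above;
* `nonempty_iaLevel` : the same with `φ` constructed from lifts `ω_i ∈ 1 + 𝔪_A` of the `w_i`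
  (`A` complete local), in `Bridge2.lean`.
-/

set_option autoImplicit false
set_option linter.style.haveILetI false
set_option linter.unusedSectionVars false

open MvPowerSeries

namespace Fermat.Agent.S38.IA.H607

open Fermat.Agent.S59.TW.H959 Fermat.Agent.S38.H901

section Bridge

variable {𝒪 : Type} [CommRing 𝒪] {r : ℕ}
  {A : Type} [CommRing A] [Algebra 𝒪 A]
  {T : Type} [CommRing T] [Algebra 𝒪 T] {M : Type} [AddCommGroup M] [Module T M]

/-- The relation ideal `((1 + y_j)^m - 1 : j)` of `𝒪⟦y₁..y_r⟧`. -/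
noncomputable abbrev iaRelJ (𝒪 : Type) [CommRing 𝒪] (r m : ℕ) :
    Ideal (MvPowerSeries (Fin r) 𝒪) :=
  Ideal.span (Set.range fun j : Fin r => ((1 + X j) ^ m - 1 : MvPowerSeries (Fin r) 𝒪))

/-- The group-ring monomial combination `∑_a c_a ∏ (1 + y_i)^(a_i)`. -/
noncomputable def iaGrpElt (m : ℕ) (c : (Fin r → Fin m) → 𝒪) : MvPowerSeries (Fin r) 𝒪 :=
  ∑ a, algebraMap 𝒪 (MvPowerSeries (Fin r) 𝒪) (c a) * ∏ i, (1 + X i) ^ (a i : ℕ)

/-- The submodule `(w_i^m - 1 : i) M`. -/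
abbrev iaRelK (M : Type) [AddCommGroup M] [Module T M] (m : ℕ) (w : Fin r → T) :
    Submodule T M :=
  Ideal.span (Set.range fun i => w i ^ m - 1) • (⊤ : Submodule T M)

variable (m : ℕ) (γ : A →ₐ[𝒪] T) (φ : MvPowerSeries (Fin r) 𝒪 →ₐ[𝒪] A) (w : Fin r → T)

theorem γ_φ_one_add_X (hγφ : ∀ i, γ (φ (X i)) = w i - 1) (i : Fin r) :
    γ (φ (1 + X i)) = w i := by
  rw [map_add, map_add, map_one, map_one, hγφ]
  ring

theorem γ_φ_iaGrpElt (hγφ : ∀ i, γ (φ (X i)) = w i - 1) (c : (Fin r → Fin m) → 𝒪) :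
    γ (φ (iaGrpElt m c)) = ∑ a, algebraMap 𝒪 T (c a) * ∏ i, w i ^ (a i : ℕ) := by
  unfold iaGrpElt
  rw [map_sum, map_sum]
  refine Finset.sum_congr rfl fun a _ => ?_
  rw [map_mul, map_mul, AlgHom.commutes, AlgHom.commutes, map_prod, map_prod]
  congr 1
  refine Finset.prod_congr rfl fun i _ => ?_
  rw [map_pow, map_pow, γ_φ_one_add_X γ φ w hγφ]

theorem γ_φ_mem_of_mem_iaRelJ (hγφ : ∀ i, γ (φ (X i)) = w i - 1)
    {f : MvPowerSeries (Fin r) 𝒪} (hf : f ∈ iaRelJ 𝒪 r m) :
    γ (φ f) ∈ Ideal.span (Set.range fun i => w i ^ m - 1) := by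
  have : iaRelJ 𝒪 r m ≤ (Ideal.span (Set.range fun i => w i ^ m - 1)).comap
      ((γ : A →+* T).comp (φ : MvPowerSeries (Fin r) 𝒪 →+* A)) := by
    rw [Ideal.span_le]
    rintro _ ⟨j, rfl⟩
    show γ (φ ((1 + X j) ^ m - 1)) ∈ Ideal.span (Set.range fun i => w i ^ m - 1)
    rw [map_sub, map_sub, map_pow, map_pow, map_one, map_one, γ_φ_one_add_X γ φ w hγφ]
    exact Ideal.subset_span ⟨j, rfl⟩
  exact this hf

/-- **BRIDGE, one level.**  From the Hecke-side data of one Taylor–Wiles level to a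
module-theoretic level `H901.IALevel` of single-sided Ihara avoidance. -/
theorem nonempty_iaLevel_of_hom
    (hγφ : ∀ i, γ (φ (X i)) = w i - 1)
    {d : ℕ} (b : Fin d → M) (hb : IsGroupRingBasis 𝒪 m w b)
    (hW : ∀ f : MvPowerSeries (Fin r) 𝒪, ∃ c : (Fin r → Fin m) → 𝒪,
      f - iaGrpElt m c ∈ iaRelJ 𝒪 r m)
    (lam : 𝒪) (s : A) (hs : ∀ x : M, ∃ y : M, γ s • x = algebraMap 𝒪 T lam • y) :
    Nonempty (IALevel.{0, 0, 0} (MvPowerSeries (Fin r) 𝒪) A (iaRelJ 𝒪 r m) d
      (algebraMap 𝒪 (MvPowerSeries (Fin r) 𝒪) lam) (algebraMap 𝒪 A lam) s) := by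
  classical
  -- the module `N`
  letI instN : Module A (M ⧸ iaRelK M m w) :=
    Module.compHom (M ⧸ iaRelK M m w) (γ : A →+* T)
  have hsmul : ∀ (f : A) (x : M),
      f • (Submodule.Quotient.mk x : M ⧸ iaRelK M m w) = Submodule.Quotient.mk (γ f • x) :=
    fun f x => rfl
  -- vanishing of `J`
  have hJ0 : ∀ f ∈ iaRelJ 𝒪 r m, ∀ x : M,
      (φ f) • (Submodule.Quotient.mk x : M ⧸ iaRelK M m w) = 0 := by
    intro f hf x
    rw [hsmul, Submodule.Quotient.mk_eq_zero]
    exact Submodule.smul_mem_smul (γ_φ_mem_of_mem_iaRelJ m γ φ w hγφ hf) Submodule.mem_top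
  -- sums
  have hsum : ∀ c : Fin d → MvPowerSeries (Fin r) 𝒪,
      (∑ j, φ (c j) • (Submodule.Quotient.mk (b j) : M ⧸ iaRelK M m w)) =
        Submodule.Quotient.mk (∑ j, γ (φ (c j)) • b j) := by
    intro c
    have h1 : (Submodule.Quotient.mk (∑ j, γ (φ (c j)) • b j) : M ⧸ iaRelK M m w) =
        ∑ j, Submodule.Quotient.mk (γ (φ (c j)) • b j) :=
      map_sum (Submodule.mkQ (iaRelK M m w)) _ _
    rw [h1]
    exact Finset.sum_congr rfl fun j _ => hsmul _ _
  have hgrp : ∀ c : Fin d → (Fin r → Fin m) → 𝒪,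
      (∑ j, γ (φ (iaGrpElt m (c j))) • b j) =
        ∑ j, ∑ a, (algebraMap 𝒪 T (c j a) * ∏ i, w i ^ (a i : ℕ)) • b j := by
    intro c
    refine Finset.sum_congr rfl fun j _ => ?_
    rw [γ_φ_iaGrpElt m γ φ w hγφ, Finset.sum_smul]
  refine ⟨
    { N := M ⧸ iaRelK M m w
      instAddCommGroup := inferInstance
      instModule := instN
      φ := (φ : MvPowerSeries (Fin r) 𝒪 →+* A)
      φ_lam := ?_
      b := fun j => Submodule.Quotient.mk (b j)
      b_span := ?_
      b_rel := ?_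
      s_smul := ?_ }⟩
  · -- φ_lam
    exact AlgHom.commutes φ lam
  · -- b_span
    intro x
    obtain ⟨x, rfl⟩ := Submodule.Quotient.mk_surjective _ x
    obtain ⟨c, hc⟩ := hb.1 x
    refine ⟨fun j => iaGrpElt m (c j), ?_⟩
    have := hsum fun j => iaGrpElt m (c j)
    rw [hgrp] at this
    show (Submodule.Quotient.mk x : M ⧸ iaRelK M m w) =
      ∑ j, φ (iaGrpElt m (c j)) • (Submodule.Quotient.mk (b j) : M ⧸ iaRelK M m w)
    rw [this]
    exact (Submodule.Quotient.eq _).mpr hc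
  · -- b_rel
    intro c
    constructor
    · intro h0
      have h0' : (∑ j, φ (c j) • (Submodule.Quotient.mk (b j) : M ⧸ iaRelK M m w)) = 0 := h0
      choose c' hc' using fun j => hW (c j)
      have h1 : (∑ j, φ (iaGrpElt m (c' j)) •
          (Submodule.Quotient.mk (b j) : M ⧸ iaRelK M m w)) = 0 := by
        have h2 : ∀ j, φ (iaGrpElt m (c' j)) •
            (Submodule.Quotient.mk (b j) : M ⧸ iaRelK M m w) =
            φ (c j) • (Submodule.Quotient.mk (b j) : M ⧸ iaRelK M m w) -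
              φ (c j - iaGrpElt m (c' j)) • Submodule.Quotient.mk (b j) := by
          intro j
          rw [← sub_smul, ← map_sub, sub_sub_cancel]
        rw [Finset.sum_congr rfl fun j _ => h2 j, Finset.sum_sub_distrib, h0',
          Finset.sum_eq_zero fun j _ => hJ0 _ (hc' j) (b j), sub_zero]
      rw [hsum, hgrp, Submodule.Quotient.mk_eq_zero] at h1
      have h3 := hb.2 c' h1
      intro j
      have h4 : iaGrpElt m (c' j) = 0 := by
        unfold iaGrpElt
        refine Finset.sum_eq_zero fun a _ => ?_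
        rw [h3 j a, map_zero, zero_mul]
      have := hc' j
      rwa [h4, sub_zero] at this
    · intro hc
      exact Finset.sum_eq_zero fun j _ => hJ0 _ (hc j) (b j)
  · -- s_smul
    intro x
    obtain ⟨x, rfl⟩ := Submodule.Quotient.mk_surjective _ x
    obtain ⟨y, hy⟩ := hs x
    refine ⟨Submodule.Quotient.mk y, ?_⟩
    rw [hsmul, hsmul, hy, AlgHom.commutes]

end Bridge

end Fermat.Agent.S38.IA.H607
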