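import Fermat.Agent.S38.IA.SpecBridge
import Fermat.Agent.S38.IA.H607.Bridge
import Fermat.Agent.S38.IA.H474.DimS
import Fermat.Agent.S59.H607.PSeries
import Fermat.Agent.S59.TW.H206.Weierstrass
import Fermat.Agent.S53.H596.PowerSeriesCNL

/-!
# Row HARD (row 37), cell BRIDGE: the three frozen leaves of `S38/IA/SpecBridge.lean`
(helper607; board `coord/HARD.md` v3, §3.3)

* `iaBridgeIdeal : IABridgeIdealStatement` — `J_n ≤ 𝔪_S ^ n`;
* `iaBridge : IABridgeStatement` — the level `H901.IALevel` from the Hecke-side data of one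
  Taylor–Wiles set (`φ : y_i ↦ ω_i - 1` by `S53.H596.evalCNL`, spanning by helper206's
  `weierstrass`, the module-theoretic part is `nonempty_iaLevel_of_hom` of `Bridge.lean`);
* `iaBridgeBase : IABridgeBaseStatement` — `S = 𝒪⟦y_1..y_r⟧` is profinite-adic of dimension
  `r + 1` (dimension: helper474's `ringKrullDim_mvPowerSeries_dvr`).

All three verbatim at the frozen types.
-/

set_option autoImplicit false
set_option linter.style.haveILetI false
set_option linter.unusedSectionVars false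

open MvPowerSeries IsLocalRing

namespace Fermat.Agent.S38.IA.H607

open Fermat.Agent.S59.TW.H959 Fermat.Agent.S59.Patch.H967 Fermat.Agent.S38.H901
open Fermat.Agent.S38.IA

/-- The frozen relation ideal is the relation ideal of `Bridge.lean`. -/
theorem twRelIdeal_eq_iaRelJ (𝒪 : Type) [CommRing 𝒪] (p n r : ℕ) :
    twRelIdeal 𝒪 p n r = iaRelJ 𝒪 r (p ^ n) := rfl

/-- **LEAF BRIDGE-1.** -/
theorem iaBridgeIdeal : IABridgeIdealStatement := by
  intro p _ 𝒪 _ _ _ hp𝒪 n r
  refine le_trans ?_ (Ideal.pow_le_pow_right (Nat.le_succ n))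
  exact Fermat.Agent.S59.H607.twIdeal_le hp𝒪 n

/-- **LEAF BRIDGE-3.** -/
theorem iaBridgeBase : IABridgeBaseStatement := by
  intro 𝒪 _ _ _ _ _ r
  haveI : IsAdicComplete (maximalIdeal (MvPowerSeries (Fin r) 𝒪)) (MvPowerSeries (Fin r) 𝒪) :=
    Fermat.Agent.S53.H596.isAdicComplete_mvPowerSeries
  exact ⟨⟨inferInstance, inferInstance,
    fun K => Fermat.Agent.S59.H607.finite_quotient_maximalIdeal_pow_mvPowerSeries K⟩,
    Fermat.Agent.S38.IA.H474.ringKrullDim_mvPowerSeries_dvr 𝒪 r⟩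

/-- **LEAF BRIDGE-2.** -/
theorem iaBridge : IABridgeStatement := by
  intro p _ 𝒪 _ _ _ _ _ hp𝒪 A _ _ _ hA T _ _ γ M _ _ n r d w b hb hw lam s hs
  haveI : IsHausdorff (maximalIdeal A) A := hA.haus
  haveI : IsPrecomplete (maximalIdeal A) A := hA.prec
  haveI : IsAdicComplete (maximalIdeal A) A := {}
  choose ω hω1 hω2 using hw
  have hγφ : ∀ i, γ (Fermat.Agent.S53.H596.evalCNL (R := 𝒪) (maximalIdeal A)
      (fun i => ω i - 1) hω2 (X i)) = w i - 1 := by
    intro i
    rw [Fermat.Agent.S53.H596.evalCNL_X, map_sub, map_one, hω1]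
  exact nonempty_iaLevel_of_hom (p ^ n) γ
    (Fermat.Agent.S53.H596.evalCNL (R := 𝒪) (maximalIdeal A) (fun i => ω i - 1) hω2) w hγφ b hb
    (fun f => Fermat.Agent.S59.TW.H206.weierstrass p 𝒪 hp𝒪 n r f) lam s hs

end Fermat.Agent.S38.IA.H607
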